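/-
Fermat/Agent/T1/HubRedFinal70/Model.lean  (helper70, programme T1A, brick G9-H5 HUB-RED, concrete `hRed`)

For a two-chart model `M1` over `W = A ∩ ℚ(ζ_M)` (`K = ℚ(ζ_M)`, any function field `Fld`) with the
`W`-level hypotheses `HubRed76.ModelHyp` and a chart action `H` of `G_ℓ` on `c0 := modelChart M1` with
`WCompat` and `h2`:

* `hubRedAt_of_hubFacts` : `HubFacts c0 (O_L)` ⟹ `HubRedAt ℓ M c0 D'.b L hle` for ANY Čech datum `D'`
  on `c0` (in particular the invariant one);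
* `exists_invariant_basis_hubRedAt_of_hubFacts` : the fields `hb`, `hRed` of the hub package, from
  `∀ L, HubFacts c0 (O_L)`;
* `hubFacts_OL_of_bcData` : `HubFacts c0 (O_L)` from base change data `ModelBC51.Abstract.BCData`
  and a model over `L` (wrapper of `HubRed76.hubFacts_of_bcData` with the instances of `FinalIface`).
-/
import Mathlib
import Fermat.Agent.T1.HubRed76
import Fermat.Agent.T1.HubRedGlue70
import Fermat.Agent.T1.ModelCoh30.HubCheck

set_option autoImplicit false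
set_option linter.unusedSectionVars false
set_option linter.style.haveILetI false

noncomputable section

open TensorProduct

namespace Fermat.Agent.T1.HubRedFinal70

open Fermat.Agent.Jac Fermat.Agent.RED.CORE.CoreIface24 Fermat.Agent.T1.ModelCoh30
  Fermat.Agent.T1.RedIface75 Fermat.Agent.T1.CechFormal70
  Fermat.Agent.T1.RedMaster75 Fermat.Agent.T1.GalAct44 Fermat.Agent.T1.Coh60
  Fermat.Agent.T1.HubRed76 Fermat.Agent.T1.HubRedGlue70
open Fermat.Agent.TW.B5.Iface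
open Fermat.Agent.RED.Interface4
open Fermat.Agent.T1.HubInst98 Fermat.Agent.T1.Assembly41

attribute [local instance] Coh60.algebra0 Coh60.algebra1 Coh60.isScalarTower0
  Coh60.isScalarTower1

section WithD

universe u

variable {W B0 B1 B01 : Type u} [CommRing W] [CommRing B0] [CommRing B1] [CommRing B01]
  [Algebra W B0] [Algebra W B1] [Algebra W B01] [Algebra B0 B01] [Algebra B1 B01]
  [IsScalarTower W B0 B01] [IsScalarTower W B1 B01]
  {c0 : TwoChart W B0 B1 B01} {g g' : ℕ}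
  {O : Type u} [CommRing O] [IsDomain O] [IsDiscreteValuationRing O] [Algebra W O]
  {L : Type u} [Field L] [Algebra W L] [Algebra O L] [IsScalarTower W O L] [IsFractionRing O L]

/-- Replace the Čech datum of a `RedInputs` by another one (possibly with a different number of
basis elements) with the same restriction maps. -/
def withD' (I : RedInputs c0 g O L) (D' : CechData W B0 B1 B01 g')
    (hρ0 : ∀ x, D'.ρ0 x = algebraMap B0 B01 x) (hρ1 : ∀ x, D'.ρ1 x = algebraMap B1 B01 x) :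
    RedInputs c0 g' O L where
  hfp := I.hfp
  D := D'
  hρ0 := hρ0
  hρ1 := hρ1
  π := I.π
  hπ := I.hπ
  hg := I.hg
  hint0 := I.hint0
  hint1 := I.hint1
  hinv0 := I.hinv0
  hinv1 := I.hinv1

@[simp] theorem withD'_D (I : RedInputs c0 g O L) (D' : CechData W B0 B1 B01 g')
    (hρ0 : ∀ x, D'.ρ0 x = algebraMap B0 B01 x) (hρ1 : ∀ x, D'.ρ1 x = algebraMap B1 B01 x) :
    (withD' I D' hρ0 hρ1).D = D' := rfl

end WithD

variable (ℓ : ℕ) [Fact ℓ.Prime] (M : ℕ) [NeZero M]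

variable {Fld : Type} [Field Fld] [Algebra (Wr ℓ M) Fld] [Algebra ↥(K1 M) Fld]
  [IsScalarTower (Wr ℓ M) ↥(K1 M) Fld]
  {π : Wr ℓ M} {t : Fld} {B0 B1 : Subalgebra (Wr ℓ M) Fld} {Ov : ValuationSubring Fld}
  (M1 : TwoChartModel (Wr ℓ M) ↥(K1 M) Fld π t B0 B1 Ov)
  (hM1 : ModelHyp ↥(K1 M) π t B1 Ov)

/-- `HubFacts` at `O_L` with the `FinalIface` algebra instance. -/
def HubFactsAt (L : IntermediateField ℚ Qbar) (hle : K1 M ≤ L) : Prop :=
  letI := algAK (padicPlace ℓ) hle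
  HubFacts (mc M1 :) (OL ℓ L)

include hM1 in
/-- **`HubRedAt`** for any Čech datum on the model chart, from the hub facts at `O_L`. -/
theorem hubRedAt_of_hubFacts {g : ℕ}
    (D' : CechData (Wr ℓ M) ↥B0 ↥B1 ↥(B0 ⊔ B1) g)
    (hρ0 : ∀ x, D'.ρ0 x = algebraMap ↥B0 ↥(B0 ⊔ B1) x)
    (hρ1 : ∀ x, D'.ρ1 x = algebraMap ↥B1 ↥(B0 ⊔ B1) x)
    (L : IntermediateField ℚ Qbar) [FiniteDimensional ℚ L] (hle : K1 M ≤ L)
    (hO : HubFactsAt ℓ M M1 L hle) :
    HubRedAt ℓ M (mc M1 :) D'.b L hle := by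
  letI := algAK (padicPlace ℓ) hle
  letI := algAKL (padicPlace ℓ) hle
  haveI := isScalarTower_AK (padicPlace ℓ) hle
  haveI := isDVR_OL ℓ L
  have I0 : RedInputs (mc M1 :) (genus M1 hM1.hκ) (OL ℓ L) ↥L :=
    redInputs M1 hM1 (h1Basis M1 hM1.hκ) (h1Basis_span M1 hM1.hκ) (h1Basis_indep M1 hM1.hκ)
      (OL ℓ L) ↥L hO
  exact HubRedGlue70.hubRed (withD' I0 D' hρ0 hρ1)

include hM1 in
/-- **The fields `hb`, `hRed` of the hub package** for the model chart. -/
theorem exists_invariant_basis_hubRedAt_of_hubFacts (hℓM : ¬ ℓ ∣ M)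
    (H : ChartAction (mc M1 :) (Gp ℓ)) (hW : WCompat ℓ M (mc M1 :) H)
    (h2 : ∀ σ : Gp ℓ, (∀ x ∈ K1 M, localGaloisToGlobal ℓ σ x = x) →
      (H.S σ).σ01 = RingHom.id ↥(B0 ⊔ B1))
    (hO : ∀ (L : IntermediateField ℚ Qbar) [FiniteDimensional ℚ L] (hle : K1 M ≤ L),
      HubFactsAt ℓ M M1 L hle) :
    ∃ b : Fin (genus M1 hM1.hκ) → ↥(B0 ⊔ B1),
      (∀ (σ : Gp ℓ) (i : Fin (genus M1 hM1.hκ)), (H.S σ).σ01 (b i) = b i) ∧
      ∀ (L : IntermediateField ℚ Qbar) [FiniteDimensional ℚ L] (hle : K1 M ≤ L),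
        HubRedAt ℓ M (mc M1 :) b L hle := by
  obtain ⟨D', h0, h1, hinv⟩ :=
    InvBasis70.exists_invariant_cechData_of_WCompat ℓ M hℓM H hW h2
      (cechData M1 hM1.hKF hM1.hκ) (fun _ => rfl) (fun _ => rfl)
  have hρ0' : ∀ x, D'.ρ0 x = algebraMap ↥B0 ↥(B0 ⊔ B1) x := fun x => by rw [h0]; rfl
  have hρ1' : ∀ x, D'.ρ1 x = algebraMap ↥B1 ↥(B0 ⊔ B1) x := fun x => by rw [h1]; rfl
  exact ⟨D'.b, hinv, fun L _ hle =>
    hubRedAt_of_hubFacts ℓ M M1 hM1 D' hρ0' hρ1' L hle (hO L hle)⟩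

end Fermat.Agent.T1.HubRedFinal70
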