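/-
Fermat/Agent/T1/HubRedFinal70/Concrete.lean  (helper70, programme T1A, brick G9-H5 HUB-RED, concrete `hRed`)

The fields `hb`, `hRed` of the hub package for the CONCRETE hub `Assembly41.Concrete.c0 F`
(`F : ModelFamily ℓ M n e`), from base change data `BCAt F L hle` for every finite `L ⊇ K₁`
(brick G2 NumField):

* `modelHyp F`  : the `W`-level hypotheses `HubRed76.ModelHyp` (helper4 G0 + helper62 G0-X + helper30);
* `BCAt F L hle` : a `ModelBC51.Abstract.BCData` between the models over `K₁` and `L` with `iR`, `iF`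
  the inclusions;
* `hubFactsAt_of_bcAt`, `exists_invariant_basis_hubRedAt_concrete`.
-/
import Mathlib
import Fermat.Agent.T1.HubRedFinal70.Model
import Fermat.Agent.T1.ModelFacts62.G0Exports
import Fermat.Agent.T1.Assembly41.ConcreteHub

set_option autoImplicit false
set_option linter.unusedSectionVars false
set_option linter.style.haveILetI false

noncomputable section

open TensorProduct

namespace Fermat.Agent.T1.HubRedFinal70

open Fermat.Agent.Jac Fermat.Agent.RED.CORE.CoreIface24 Fermat.Agent.T1.ModelCoh30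
  Fermat.Agent.T1.RedIface75 Fermat.Agent.T1.CechFormal70
  Fermat.Agent.T1.RedMaster75 Fermat.Agent.T1.GalAct44 Fermat.Agent.T1.Coh60
  Fermat.Agent.T1.HubRed76 Fermat.Agent.T1.HubRedGlue70
open Fermat.Agent.TW.B5.Iface
open Fermat.Agent.RED.Interface4
open Fermat.Agent.T1.HubInst98 Fermat.Agent.T1.Assembly41

attribute [local instance] Coh60.algebra0 Coh60.algebra1 Coh60.isScalarTower0
  Coh60.isScalarTower1

/-! ### The concrete hub `Concrete.c0 F` -/

section Concrete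

open Fermat.Agent.T1.Assembly41.Concrete Fermat.Agent.T1.ModelUnr4.Explicit
open Fermat.Agent.RED.PUR.GaussGen8 Fermat.Agent.RED.BASE.EtaQuot12
open Fermat.Agent.X0

variable {ℓ : ℕ} [Fact ℓ.Prime] {M : ℕ} [NeZero M] {n e : ℕ} [NeZero n] (F : ModelFamily ℓ M n e)

/-- The Gauss valuation ring of `K·F_M` for `A ∩ K`. -/
abbrev OvK (K : IntermediateField ℚ Qbar) [FiniteDimensional ℚ K] :
    ValuationSubring ↥(FK M K) :=
  gaussVS (isUnif_AK (hA ℓ) K (unif_irreducible ℓ K)) (FK M K)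
    (FK_le_fracField_AK (padicPlace ℓ) K M)

/-- The model over `K₁ = ℚ(ζ_M)`. -/
theorem model1 : TwoChartModel (Wr ℓ M) ↥(K1 M) ↥(FK M (K1 M)) (unif ℓ (K1 M)) (tK F (K1 M))
    (B0K F (K1 M)) (B1K F (K1 M)) (OvK (ℓ := ℓ) (M := M) (K1 M)) :=
  modelK F (K1 M) (zetaK_mem_K1 M)

/-- **The `W`-level hypotheses** of `HubRed76` for the concrete hub. -/
theorem modelHyp : ModelHyp ↥(K1 M) (unif ℓ (K1 M)) (tK F (K1 M)) (B1K F (K1 M))
    (OvK (ℓ := ℓ) (M := M) (K1 M)) where
  htrans := Fermat.Agent.T1.ModelFacts62.G0Exports.htrans_gaussVS_tq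
    (isUnif_AK (hA ℓ) (K1 M) (unif_irreducible ℓ (K1 M)))
    (FK_le_fracField_AK (padicPlace ℓ) (K1 M) M) (model1 F) n e rfl
  fin1 := (explicitK F (K1 M) (zetaK_mem_K1 M)).fin1
  hKF := Fermat.Agent.T1.ModelFacts62.G0Exports.hKF_intermediate (FK M (K1 M))
  hκ := resAlgClosed_gaussVS (isUnif_AK (hA ℓ) (K1 M) (unif_irreducible ℓ (K1 M)))
    (FK_le_fracField_AK (padicPlace ℓ) (K1 M) M) (model1 F)

/-- **Base change data at `L`** (brick G2 NumField, helper51 / helper4): a `BCData` between the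
models over `K₁` and over `L` whose maps are the inclusions. -/
def BCAt (L : IntermediateField ℚ Qbar) [FiniteDimensional ℚ L] (hle : K1 M ≤ L) : Prop :=
  ∃ D : Fermat.Agent.T1.ModelBC51.Abstract.BCData ↥(K1 M) ↥L (unif ℓ (K1 M)) (unif ℓ L)
      (OvK (ℓ := ℓ) (M := M) (K1 M)) (OvK (ℓ := ℓ) (M := M) L),
    (∀ r : Wr ℓ M, D.iR r = inclAK (padicPlace ℓ) hle r) ∧ D.iF (tK F (K1 M)) = tK F L

/-- **`HubFacts` at `O_L`** from the base change data. -/
theorem hubFactsAt_of_bcAt (L : IntermediateField ℚ Qbar) [FiniteDimensional ℚ L]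
    (hle : K1 M ≤ L) (hBC : BCAt F L hle) : HubFactsAt ℓ M (model1 F) L hle := by
  obtain ⟨D, hR, ht⟩ := hBC
  letI := algAK (padicPlace ℓ) hle
  have hζ : zetaK M ∈ L := zetaK_mem_of_K1_le M hle
  have hL := modelK F L hζ
  rw [← ht] at hL
  refine hubFacts_of_bcData (model1 F) D (fun r => (hR r).symm) hL ?_
  rw [ht]
  exact Fermat.Agent.T1.ModelFacts62.G0Exports.not_const_tq (tK F L) n e rfl

/-- **The concrete `hb` + `hRed`**: for the hub `Concrete.c0 F` and any chart action of `G_ℓ` with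
`WCompat` and `h2`, from the base change data for every finite `L ⊇ K₁`. -/
theorem exists_invariant_basis_hubRedAt_concrete
    (H : ChartAction (c0 F :) (Gp ℓ)) (hW : WCompat ℓ M (c0 F :) H)
    (h2 : ∀ σ : Gp ℓ, (∀ x ∈ K1 M, localGaloisToGlobal ℓ σ x = x) →
      (H.S σ).σ01 = RingHom.id ↥(B0K F (K1 M) ⊔ B1K F (K1 M)))
    (hBC : ∀ (L : IntermediateField ℚ Qbar) [FiniteDimensional ℚ L] (hle : K1 M ≤ L),
      BCAt F L hle) :
    ∃ (g : ℕ) (b : Fin g → ↥(B0K F (K1 M) ⊔ B1K F (K1 M))),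
      (∀ (σ : Gp ℓ) (i : Fin g), (H.S σ).σ01 (b i) = b i) ∧
      ∀ (L : IntermediateField ℚ Qbar) [FiniteDimensional ℚ L] (hle : K1 M ≤ L),
        HubRedAt ℓ M (c0 F :) b L hle :=
  ⟨_, exists_invariant_basis_hubRedAt_of_hubFacts ℓ M (model1 F) (modelHyp F) F.hℓM H hW h2
    (fun L _ hle => hubFactsAt_of_bcAt F L hle (hBC L hle))⟩

end Concrete

end Fermat.Agent.T1.HubRedFinal70
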