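/-
Fermat/Agent/T1/HubRedFinal70/BCAt.lean  (helper70, programme T1A, brick G9-H5 HUB-RED)

UNCONDITIONAL concrete hub facts: `BCAt F L hle` holds for every finite `L ⊇ K₁` (helper51's
`ModelBC51.NumFieldGlue.nonempty_bcData_AK`), hence

* `hubFactsAt_concrete F L hle : HubFactsAt ℓ M (model1 F) L hle`
  (= `HubRed76.HubFacts (c0 F) (OL ℓ L)` with the instance `algAK (padicPlace ℓ) hle`);
* `hubRed_concrete F H hW h2` : the fields `g`, `b`, `hb`, `hRed` of the hub package for `c0 F`.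
-/
import Mathlib
import Fermat.Agent.T1.HubRedFinal70.Concrete
import Fermat.Agent.T1.ModelBC51.NumFieldGlue
import Fermat.Agent.T1.Assembly41.FastInst

set_option autoImplicit false
set_option linter.unusedSectionVars false
set_option linter.style.haveILetI false

noncomputable section

namespace Fermat.Agent.T1.HubRedFinal70

open Fermat.Agent.Jac Fermat.Agent.RED.CORE.CoreIface24
  Fermat.Agent.T1.RedIface75 Fermat.Agent.T1.CechFormal70
  Fermat.Agent.T1.GalAct44 Fermat.Agent.T1.Coh60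
  Fermat.Agent.T1.HubRed76
open Fermat.Agent.TW.B5.Iface
open Fermat.Agent.RED.Interface4
open Fermat.Agent.T1.HubInst98 Fermat.Agent.T1.Assembly41
open Fermat.Agent.T1.Assembly41.Concrete Fermat.Agent.T1.ModelUnr4.Explicit
open Fermat.Agent.RED.PUR.GaussGen8 Fermat.Agent.RED.BASE.EtaQuot12
open Fermat.Agent.X0
open scoped Fermat.Agent.T1.Assembly41.FastInst

attribute [local instance] Coh60.algebra0 Coh60.algebra1 Coh60.isScalarTower0
  Coh60.isScalarTower1

variable {ℓ : ℕ} [Fact ℓ.Prime] {M : ℕ} [NeZero M] {n e : ℕ} [NeZero n] (F : ModelFamily ℓ M n e)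

/-- **The base change data exist** for every finite `L ⊇ K₁` (brick G2 NumField, helper51). -/
theorem bcAt (L : IntermediateField ℚ Qbar) [FiniteDimensional ℚ L] (hle : K1 M ≤ L) :
    BCAt F L hle := by
  obtain ⟨hOO', hEE', D, h1, -, h3, h4, -⟩ :=
    Fermat.Agent.T1.ModelBC51.NumFieldGlue.nonempty_bcData_AK (padicPlace ℓ) hle
      (Fact.out : ℓ.Prime).ne_zero (hA ℓ) M
      (isUnif_AK (hA ℓ) (K1 M) (unif_irreducible ℓ (K1 M)))
      (isUnif_AK (hA ℓ) L (unif_irreducible ℓ L))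
  refine ⟨D, fun r => (h4 r).symm, ?_⟩
  rw [h3]
  exact Subtype.ext (coeffMap_tq (R := ↥(K1 M)) _ n e)

/-- **The hub facts at `O_L`**, unconditionally. -/
theorem hubFactsAt_concrete (L : IntermediateField ℚ Qbar) [FiniteDimensional ℚ L]
    (hle : K1 M ≤ L) : HubFactsAt ℓ M (model1 F) L hle :=
  hubFactsAt_of_bcAt F L hle (bcAt F L hle)

/-- **The concrete `hb` + `hRed`**, unconditionally in the model: for the hub `Concrete.c0 F` and
any chart action of `G_ℓ` with `WCompat` and `h2`. -/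
theorem hubRed_concrete
    (H : ChartAction (c0 F :) (Gp ℓ)) (hW : WCompat ℓ M (c0 F :) H)
    (h2 : ∀ σ : Gp ℓ, (∀ x ∈ K1 M, localGaloisToGlobal ℓ σ x = x) →
      (H.S σ).σ01 = RingHom.id ↥(B0K F (K1 M) ⊔ B1K F (K1 M))) :
    ∃ (g : ℕ) (b : Fin g → ↥(B0K F (K1 M) ⊔ B1K F (K1 M))),
      (∀ (σ : Gp ℓ) (i : Fin g), (H.S σ).σ01 (b i) = b i) ∧
      ∀ (L : IntermediateField ℚ Qbar) [FiniteDimensional ℚ L] (hle : K1 M ≤ L),
        HubRedAt ℓ M (c0 F :) b L hle :=
  exists_invariant_basis_hubRedAt_concrete F H hW h2 (fun L _ hle => bcAt F L hle)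

end Fermat.Agent.T1.HubRedFinal70
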