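/-
Fermat/Agent/T1/HubRedFinal70/Provider.lean  (helper70, programme T1A, brick G9-H5 HUB-RED)

`factsProvider : Assembly41.FactsProvider` — the hub facts `HubRed76.HubFacts (c0 F) (O_L)` for every
model family `F` and every finite `L ⊇ K₁`: the first of the two hypotheses of
`Assembly41.hub_packages_of_providers` (`Assembly41/Package.lean`).
-/
import Mathlib
import Fermat.Agent.T1.HubRedFinal70.BCAt
import Fermat.Agent.T1.Assembly41.Package

set_option autoImplicit false
set_option linter.unusedSectionVars false
set_option linter.style.haveILetI false

noncomputable section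

namespace Fermat.Agent.T1.HubRedFinal70

open Fermat.Agent.T1.Assembly41 Fermat.Agent.T1.Assembly41.Concrete
open scoped Fermat.Agent.T1.Assembly41.FastInst

attribute [local instance] Coh60.algebra0 Coh60.algebra1 Coh60.isScalarTower0
  Coh60.isScalarTower1

/-- **The hub facts provider**: discharged. -/
theorem factsProvider : FactsProvider :=
  fun _ _ _ _ _ _ _ F L _ hle => hubFactsAt_concrete F L hle

end Fermat.Agent.T1.HubRedFinal70
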